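/-
S43lib / B2 / Ring (helper5).  **The ring-theoretic fields of a `HeckeGaloisRepDatum` for the
prelude's localised Hecke algebra `T = heckeLocal N S 𝒪 θ`**: `π`, `residue_π`, `adjoin_range_π`,
`exists_point`, `residue_surjective`.
-/
import Mathlib
import Fermat.Prelude.Def_CuspForm_HeckeLocal

set_option autoImplicit false
set_option linter.unusedSectionVars false
set_option linter.style.haveILetI false

noncomputable section

namespace Fermat.Agent.S43lib.B2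

open CuspForm IsLocalRing
open scoped TensorProduct

variable (N : ℕ) [NeZero N] (S : Set ℕ)
  (𝒪 : Type) [CommRing 𝒪] [IsDomain 𝒪] [IsDiscreteValuationRing 𝒪]
  [IsAdicComplete (maximalIdeal 𝒪) 𝒪]
  (θ : heckeAlgebra N 2 S →+* ResidueField 𝒪) [hint : Fact (HasIntegralStructure N 2)]

set_option synthInstance.maxHeartbeats 400000
set_option maxHeartbeats 1000000

/-- `B → B_𝔪 = T` is surjective (`B` is a finite algebra over the complete local ring `𝒪`). -/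
theorem heckeLocal_algebraMap_surjective :
    Function.Surjective (algebraMap (heckeBaseAlgebra N S 𝒪) (heckeLocal N S 𝒪 θ)) := by
  classical
  haveI : Module.Finite 𝒪 (heckeBaseAlgebra N S 𝒪) :=
    inferInstanceAs (Module.Finite 𝒪 (𝒪 ⊗[ℤ] ↥(heckeLatticeAlgebra N S)))
  obtain ⟨-, hbij, -, -⟩ :=
    Algebra.finite_maximalSpectrum_and_bijective_localization_of_module_finite (𝒪 := 𝒪)
      (heckeBaseAlgebra N S 𝒪)
  let P : MaximalSpectrum (heckeBaseAlgebra N S 𝒪) :=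
    ⟨heckeLocalIdeal N S 𝒪 θ, heckeLocalIdeal.instIsMaximal N S 𝒪 θ⟩
  have hsurjP : Function.Surjective
      (algebraMap (heckeBaseAlgebra N S 𝒪) (Localization.AtPrime P.asIdeal)) := by
    intro z
    obtain ⟨b, hb⟩ := hbij.2 (Function.update 0 P z)
    refine ⟨b, ?_⟩
    have h := congrFun hb P
    simp only [Function.update_self] at h
    exact h
  let e := IsLocalization.algEquiv (heckeLocalIdeal N S 𝒪 θ).primeCompl
    (Localization.AtPrime (heckeLocalIdeal N S 𝒪 θ)) (heckeLocal N S 𝒪 θ)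
  intro z
  obtain ⟨b, hb⟩ := hsurjP (e.symm z)
  refine ⟨b, ?_⟩
  have h1 : e (algebraMap (heckeBaseAlgebra N S 𝒪) (Localization.AtPrime P.asIdeal) b) = z := by
    rw [hb, AlgEquiv.apply_symm_apply]
  rw [← h1]
  exact (e.commutes b).symm

/-- `π t` is the image of `1 ⊗ t`. -/
theorem heckeLocal_π_apply (t : heckeAlgebra N 2 S) :
    heckeLocal.π N S 𝒪 θ t =
      algebraMap (heckeBaseAlgebra N S 𝒪) (heckeLocal N S 𝒪 θ)
        (latticeBaseChange N S 𝒪 ((1 : 𝒪) ⊗ₜ[ℤ] t)) := rfl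

/-- the kernel of the residual character maps into the maximal ideal of `T`. -/
theorem algebraMap_latticeBaseChange_mem_maximalIdeal {x : 𝒪 ⊗[ℤ] ↥(heckeAlgebra N 2 S)}
    (hx : x ∈ heckeCharKernel N S 𝒪 θ) :
    algebraMap (heckeBaseAlgebra N S 𝒪) (heckeLocal N S 𝒪 θ) (latticeBaseChange N S 𝒪 x) ∈
      maximalIdeal (heckeLocal N S 𝒪 θ) := by
  have h1 : latticeBaseChange N S 𝒪 x ∈ heckeLocalIdeal N S 𝒪 θ := Ideal.mem_map_of_mem _ hx
  exact (IsLocalization.AtPrime.to_map_mem_maximal_iff (heckeLocal N S 𝒪 θ)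
    (heckeLocalIdeal N S 𝒪 θ) _).mpr h1

/-- elements outside the kernel of the residual character map to units of `T`. -/
theorem algebraMap_latticeBaseChange_isUnit {x : 𝒪 ⊗[ℤ] ↥(heckeAlgebra N 2 S)}
    (hx : x ∉ heckeCharKernel N S 𝒪 θ) :
    IsUnit (algebraMap (heckeBaseAlgebra N S 𝒪) (heckeLocal N S 𝒪 θ)
      (latticeBaseChange N S 𝒪 x)) :=
  IsLocalization.map_units (heckeLocal N S 𝒪 θ)
    (⟨latticeBaseChange N S 𝒪 x, x, Ideal.mem_primeCompl_iff.mpr hx, rfl⟩ :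
      heckeLocalSubmonoid N S 𝒪 θ)

/-- the structure map of `T` through `B`. -/
theorem heckeLocal_algebraMap_eq (a : 𝒪) :
    algebraMap 𝒪 (heckeLocal N S 𝒪 θ) a =
      algebraMap (heckeBaseAlgebra N S 𝒪) (heckeLocal N S 𝒪 θ)
        (latticeBaseChange N S 𝒪 (algebraMap 𝒪 (𝒪 ⊗[ℤ] ↥(heckeAlgebra N 2 S)) a)) := by
  rw [latticeBaseChange_algebraMap]
  exact IsScalarTower.algebraMap_apply 𝒪 (heckeBaseAlgebra N S 𝒪) (heckeLocal N S 𝒪 θ) a

/-- **`residue_π`.** -/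
theorem heckeLocal_residue_π (t : heckeAlgebra N 2 S) :
    residue (heckeLocal N S 𝒪 θ) (heckeLocal.π N S 𝒪 θ t) =
      ResidueField.map (algebraMap 𝒪 (heckeLocal N S 𝒪 θ)) (θ t) := by
  obtain ⟨a, ha⟩ := residue_surjective (θ t)
  have hx : ((1 : 𝒪) ⊗ₜ[ℤ] t - algebraMap 𝒪 (𝒪 ⊗[ℤ] ↥(heckeAlgebra N 2 S)) a) ∈
      heckeCharKernel N S 𝒪 θ := by
    rw [mem_heckeCharKernel_iff, map_sub, residualCharacter_tmul, residualCharacter_algebraMap,
      map_one, one_mul, ha, sub_self]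
  have h1 := algebraMap_latticeBaseChange_mem_maximalIdeal N S 𝒪 θ hx
  rw [map_sub, map_sub, ← heckeLocal_π_apply, ← heckeLocal_algebraMap_eq,
    ← residue_eq_zero_iff, map_sub, sub_eq_zero] at h1
  rw [h1, ← ha, ResidueField.map_residue]

/-- the element `a ⊗ l` of `B`. -/
def baseTmul (a : 𝒪) (l : ↥(heckeLatticeAlgebra N S)) : heckeBaseAlgebra N S 𝒪 :=
  (a ⊗ₜ[ℤ] l : 𝒪 ⊗[ℤ] ↥(heckeLatticeAlgebra N S))

theorem latticeBaseChange_tmul' (a : 𝒪) (t : ↥(heckeAlgebra N 2 S)) :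
    latticeBaseChange N S 𝒪 (a ⊗ₜ t) = baseTmul N S 𝒪 a (latticeRestrictHom N S t) := rfl

theorem baseTmul_eq_smul (a : 𝒪) (l : ↥(heckeLatticeAlgebra N S)) :
    baseTmul N S 𝒪 a l = a • baseTmul N S 𝒪 1 l := by
  show (a ⊗ₜ[ℤ] l : 𝒪 ⊗[ℤ] ↥(heckeLatticeAlgebra N S)) = a • ((1 : 𝒪) ⊗ₜ[ℤ] l)
  rw [TensorProduct.smul_tmul', smul_eq_mul, mul_one]

/-- induction principle for `B`. -/
theorem base_induction {motive : heckeBaseAlgebra N S 𝒪 → Prop} (b : heckeBaseAlgebra N S 𝒪)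
    (zero : motive 0) (tmul : ∀ a l, motive (baseTmul N S 𝒪 a l))
    (add : ∀ x y, motive x → motive y → motive (x + y)) : motive b :=
  TensorProduct.induction_on (motive := fun b : 𝒪 ⊗[ℤ] ↥(heckeLatticeAlgebra N S) => motive b)
    b zero tmul add

/-- **`adjoin_range_π`.** -/
theorem heckeLocal_adjoin_range_π :
    Algebra.adjoin 𝒪 (Set.range (heckeLocal.π N S 𝒪 θ)) = ⊤ := by
  refine eq_top_iff.mpr fun z _ => ?_
  obtain ⟨b, rfl⟩ := heckeLocal_algebraMap_surjective N S 𝒪 θ z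
  induction b using base_induction with
  | zero =>
    rw [map_zero]
    exact Subalgebra.zero_mem _
  | tmul a l =>
    obtain ⟨t, rfl⟩ := latticeRestrictHom_surjective N S l
    rw [baseTmul_eq_smul, ← latticeBaseChange_tmul']
    have h2 : algebraMap (heckeBaseAlgebra N S 𝒪) (heckeLocal N S 𝒪 θ)
        (a • latticeBaseChange N S 𝒪 ((1 : 𝒪) ⊗ₜ[ℤ] t)) =
        a • heckeLocal.π N S 𝒪 θ t := by
      rw [heckeLocal_π_apply]
      exact map_smul (IsScalarTower.toAlgHom 𝒪 (heckeBaseAlgebra N S 𝒪) (heckeLocal N S 𝒪 θ)) a _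
    rw [h2]
    exact Subalgebra.smul_mem _ (Algebra.subset_adjoin (Set.mem_range_self t)) a
  | add x y hx hy =>
    rw [map_add]
    exact Subalgebra.add_mem _ (hx Algebra.mem_top) (hy Algebra.mem_top)

/-- **`residue_surjective`.** -/
theorem heckeLocal_residue_surjective :
    Function.Surjective (residue (heckeLocal N S 𝒪 θ) ∘ algebraMap 𝒪 (heckeLocal N S 𝒪 θ)) := by
  intro y
  obtain ⟨z, rfl⟩ := residue_surjective y
  have hz : z ∈ Algebra.adjoin 𝒪 (Set.range (heckeLocal.π N S 𝒪 θ)) := by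
    rw [heckeLocal_adjoin_range_π]
    exact Algebra.mem_top
  induction hz using Algebra.adjoin_induction with
  | mem z hz =>
    obtain ⟨t, rfl⟩ := hz
    obtain ⟨a, ha⟩ := residue_surjective (θ t)
    refine ⟨a, ?_⟩
    rw [Function.comp_apply, heckeLocal_residue_π, ← ha, ResidueField.map_residue]
  | algebraMap r => exact ⟨r, rfl⟩
  | add x y _ _ hx hy =>
    obtain ⟨a, ha⟩ := hx
    obtain ⟨b, hb⟩ := hy
    refine ⟨a + b, ?_⟩
    rw [Function.comp_apply] at ha hb ⊢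
    rw [map_add, map_add, ha, hb, map_add]
  | mul x y _ _ hx hy =>
    obtain ⟨a, ha⟩ := hx
    obtain ⟨b, hb⟩ := hy
    refine ⟨a * b, ?_⟩
    rw [Function.comp_apply] at ha hb ⊢
    rw [map_mul, map_mul, ha, hb, map_mul]

/-- **`exists_point`.** -/
theorem heckeLocal_exists_point (χ : heckeAlgebra N 2 S →+* 𝒪)
    (hχ : ∀ t : heckeAlgebra N 2 S, residue 𝒪 (χ t) = θ t) :
    ∃ ψ : heckeLocal N S 𝒪 θ →ₐ[𝒪] 𝒪, ∀ t : heckeAlgebra N 2 S,
      ψ (heckeLocal.π N S 𝒪 θ t) = χ t := by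
  classical
  let e : ↥(heckeAlgebra N 2 S) ≃ₐ[ℤ] ↥(heckeLatticeAlgebra N S) :=
    AlgEquiv.ofBijective (latticeRestrictHom N S) (latticeRestrictHom_bijective N S hint.out)
  let χ' : ↥(heckeLatticeAlgebra N S) →ₐ[ℤ] 𝒪 := χ.toIntAlgHom.comp (e.symm : _ →ₐ[ℤ] _)
  let g : heckeBaseAlgebra N S 𝒪 →ₐ[𝒪] 𝒪 :=
    (Algebra.TensorProduct.lift (AlgHom.id 𝒪 𝒪) χ' (fun _ _ => Commute.all _ _) :
      (𝒪 ⊗[ℤ] ↥(heckeLatticeAlgebra N S)) →ₐ[𝒪] 𝒪)
  have hg : ∀ (a : 𝒪) (t : ↥(heckeAlgebra N 2 S)),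
      g (latticeBaseChange N S 𝒪 (a ⊗ₜ[ℤ] t)) = a * χ t := by
    intro a t
    rw [latticeBaseChange_tmul']
    have h1 : g (baseTmul N S 𝒪 a (latticeRestrictHom N S t)) =
        a * χ (e.symm (e t)) :=
      Algebra.TensorProduct.lift_tmul (AlgHom.id 𝒪 𝒪) χ' (fun _ _ => Commute.all _ _) a
        (latticeRestrictHom N S t)
    rw [h1, AlgEquiv.symm_apply_apply]
  have hres : ∀ x : 𝒪 ⊗[ℤ] ↥(heckeAlgebra N 2 S),
      residue 𝒪 (g (latticeBaseChange N S 𝒪 x)) = residualCharacter N S 𝒪 θ x := by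
    intro x
    induction x using TensorProduct.induction_on with
    | zero => simp only [map_zero]
    | tmul a t => rw [hg, map_mul, hχ, residualCharacter_tmul]
    | add x y hx hy => rw [map_add, map_add, map_add, hx, hy, map_add]
  have hunit : ∀ y : heckeLocalSubmonoid N S 𝒪 θ,
      IsUnit ((g : heckeBaseAlgebra N S 𝒪 →+* 𝒪) (y : heckeBaseAlgebra N S 𝒪)) := by
    rintro ⟨_, x, hx, rfl⟩
    have h1 : residue 𝒪 (g (latticeBaseChange N S 𝒪 x)) ≠ 0 := by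
      rw [hres]
      exact fun h => (Ideal.mem_primeCompl_iff.mp hx) ((mem_heckeCharKernel_iff N S 𝒪 θ x).mpr h)
    exact IsLocalRing.notMem_maximalIdeal.mp fun h => h1 ((residue_eq_zero_iff _).mpr h)
  let ψ₀ : heckeLocal N S 𝒪 θ →+* 𝒪 :=
    IsLocalization.lift (M := heckeLocalSubmonoid N S 𝒪 θ)
      (g := (g : heckeBaseAlgebra N S 𝒪 →+* 𝒪)) hunit
  have hψ₀ : ∀ b : heckeBaseAlgebra N S 𝒪,
      ψ₀ (algebraMap (heckeBaseAlgebra N S 𝒪) (heckeLocal N S 𝒪 θ) b) = g b :=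
    fun b => IsLocalization.lift_eq hunit b
  refine ⟨{ toRingHom := ψ₀, commutes' := fun a => ?_ }, fun t => ?_⟩
  · show ψ₀ (algebraMap 𝒪 (heckeLocal N S 𝒪 θ) a) = algebraMap 𝒪 𝒪 a
    rw [IsScalarTower.algebraMap_apply 𝒪 (heckeBaseAlgebra N S 𝒪) (heckeLocal N S 𝒪 θ), hψ₀]
    exact g.commutes a
  · show ψ₀ (heckeLocal.π N S 𝒪 θ t) = χ t
    rw [heckeLocal_π_apply, hψ₀, hg, one_mul]

end Fermat.Agent.S43lib.B2
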