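/-
S43lib / B2 / Closed (helper5).  **Closedness and Artin–Rees for a submodule of a finite module
over a noetherian local ring**, in the `ϖ`-adic form used for `T → ∏ R_i`.

`Ψ : T → M` linear over the noetherian local ring `𝒪`, `M` finite, `ϖ ∈ 𝔪_𝒪`.
* `mem_range_of_forall_approx` : `x ∈ M` with `x ∈ Ψ(T) + ϖ^n M` for all `n` lies in `Ψ(T)`.
* `exists_artinRees` : there is `c` with `Ψ(T) ∩ ϖ^(n+c) M ⊆ Ψ(ϖ^n T)` for all `n`.
-/
import Mathlib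

set_option autoImplicit false
set_option linter.unusedSectionVars false

noncomputable section

namespace Fermat.Agent.S43lib.B2

section Closed

variable {𝒪 : Type*} [CommRing 𝒪] [IsNoetherianRing 𝒪] [IsLocalRing 𝒪]
  {T M : Type*} [AddCommGroup T] [Module 𝒪 T] [AddCommGroup M] [Module 𝒪 M] [Module.Finite 𝒪 M]
  (Ψ : T →ₗ[𝒪] M) {ϖ : 𝒪}

/-- **closedness.** -/
theorem mem_range_of_forall_approx (hϖ : ϖ ∈ IsLocalRing.maximalIdeal 𝒪) (x : M)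
    (h : ∀ n : ℕ, ∃ t : T, ∃ z : M, x - Ψ t = ϖ ^ n • z) : x ∈ LinearMap.range Ψ := by
  set N : Submodule 𝒪 M := LinearMap.range Ψ with hN
  have hK : ⨅ n : ℕ, (IsLocalRing.maximalIdeal 𝒪) ^ n • (⊤ : Submodule 𝒪 (M ⧸ N)) = ⊥ :=
    Ideal.iInf_pow_smul_eq_bot_of_isLocalRing _ (IsLocalRing.maximalIdeal.isMaximal 𝒪).ne_top
  have hmem : N.mkQ x ∈ ⨅ n : ℕ, (IsLocalRing.maximalIdeal 𝒪) ^ n • (⊤ : Submodule 𝒪 (M ⧸ N)) := by
    rw [Submodule.mem_iInf]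
    intro n
    obtain ⟨t, z, htz⟩ := h n
    have h1 : N.mkQ x = ϖ ^ n • N.mkQ z := by
      rw [← map_smul, ← htz, map_sub]
      have : N.mkQ (Ψ t) = 0 := by
        rw [Submodule.mkQ_apply, Submodule.Quotient.mk_eq_zero]
        exact LinearMap.mem_range_self Ψ t
      rw [this, sub_zero]
    rw [h1]
    exact Submodule.smul_mem_smul (Ideal.pow_mem_pow hϖ n) Submodule.mem_top
  rw [hK, Submodule.mem_bot, Submodule.mkQ_apply, Submodule.Quotient.mk_eq_zero] at hmem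
  exact hmem

/-- **Artin–Rees.** -/
theorem exists_artinRees (ϖ : 𝒪) :
    ∃ c : ℕ, ∀ (n : ℕ) (t : T), (∃ z : M, Ψ t = ϖ ^ (n + c) • z) →
      ∃ t' : T, Ψ t = Ψ (ϖ ^ n • t') := by
  set N : Submodule 𝒪 M := LinearMap.range Ψ with hN
  obtain ⟨k, hk⟩ := Ideal.exists_pow_inf_eq_pow_smul (Ideal.span {ϖ}) N
  refine ⟨k, fun n t ⟨z, hz⟩ => ?_⟩
  have h1 : Ψ t ∈ (Ideal.span {ϖ}) ^ (n + k) • (⊤ : Submodule 𝒪 M) ⊓ N := by
    refine ⟨?_, LinearMap.mem_range_self Ψ t⟩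
    rw [hz]
    exact Submodule.smul_mem_smul (Ideal.pow_mem_pow (Ideal.mem_span_singleton_self ϖ) _)
      Submodule.mem_top
  rw [hk (n + k) (Nat.le_add_left k n), Nat.add_sub_cancel] at h1
  have h2 : (Ideal.span {ϖ}) ^ n • ((Ideal.span {ϖ}) ^ k • (⊤ : Submodule 𝒪 M) ⊓ N) ≤
      (Ideal.span {ϖ ^ n} : Ideal 𝒪) • N := by
    rw [Ideal.span_singleton_pow]
    exact Submodule.smul_mono le_rfl inf_le_right
  have h3 := h2 h1
  rw [Submodule.ideal_span_singleton_smul] at h3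
  obtain ⟨y, hy, hyt⟩ := h3
  obtain ⟨t', rfl⟩ := hy
  exact ⟨t', by rw [map_smul]; exact hyt.symm⟩

end Closed

end Fermat.Agent.S43lib.B2
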