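/-
S43lib / B2 / Wiles (helper5).  **The 2×2 descent of a family of representations with traces in a
subring** (Wiles' explicit argument with a complex conjugation), in matrix form, pure algebra.

* `exists_conj_involution` : over a local ring in which `2` is a unit, a 2×2 matrix `C` with
  `C * C = 1` and `det C = -1` is conjugate to `diag(1, -1)`.
* `exists_isUnit_offdiag` : if the matrices `M σ` span `M₂(R)` over a local ring `R` then some
  product `(M σ)₀₁ (M τ)₁₀` is a unit.
* `exists_descent` : a jointly injective family `ψ i : T → R i`, representations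
  `M i : G → M₂(R i)` with `M i c = diag(1, -1)`, traces in `T`, `2 ∈ Tˣ`, and `σ₀, τ₀` such that
  the element `(b(σ₀) c(τ₀))_i` of `T` is a unit.  Then there is `Mat : G → M₂(T)` with
  `diag(1, l_i) (M i σ) = ψ_i(Mat σ) diag(1, l_i)` for units `l_i`.
-/
import Mathlib

set_option autoImplicit false
set_option linter.unusedSectionVars false

noncomputable section

namespace Fermat.Agent.S43lib.B2

open Matrix

/-! ### an involution of determinant `-1` -/

section Involution

variable {R : Type*} [CommRing R] [IsLocalRing R]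

/-- normal form of an involution of determinant `-1` over a local ring in which `2` is a unit. -/
theorem exists_conj_involution (h2 : IsUnit (2 : R)) (C : Matrix (Fin 2) (Fin 2) R)
    (hC : C * C = 1) (hdet : C.det = -1) :
    ∃ P : Matrix (Fin 2) (Fin 2) R, IsUnit P.det ∧ C * P = P * !![1, 0; 0, -1] := by
  have h00 := congrFun (congrFun hC 0) 0
  have h01 := congrFun (congrFun hC 0) 1
  simp only [Matrix.mul_apply, Fin.sum_univ_two, Matrix.one_apply_eq, ne_eq, zero_ne_one,
    not_false_eq_true, Matrix.one_apply_ne] at h00 h01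
  rw [Matrix.det_fin_two] at hdet
  obtain ⟨α, β, γ, δ, hCe⟩ : ∃ α β γ δ : R, C = !![α, β; γ, δ] :=
    ⟨C 0 0, C 0 1, C 1 0, C 1 1, Matrix.eta_fin_two C⟩
  subst hCe
  simp only [Matrix.of_apply, Matrix.cons_val_zero, Matrix.cons_val_one, Matrix.cons_val',
    Matrix.cons_val_fin_one] at h00 h01 hdet
  clear hC
  have e1 : (α + δ) * α = 0 := by linear_combination h00 + hdet
  have e2 : (α + δ) * β = 0 := by linear_combination h01
  have hs : α + δ = 0 := by
    calc α + δ = (α + δ) * (α * α + β * γ) := by rw [h00, mul_one]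
      _ = ((α + δ) * α) * α + ((α + δ) * β) * γ := by ring
      _ = 0 := by rw [e1, e2]; ring
  have hδ : δ = -α := by linear_combination hs
  clear e1 e2 hs h01 hdet
  subst hδ
  have hsum : IsUnit ((1 + α) + (1 - α)) := by
    have : (1 + α) + (1 - α) = 2 := by ring
    rw [this]; exact h2
  rcases IsLocalRing.isUnit_or_isUnit_of_isUnit_add hsum with hu | hu
  · refine ⟨!![1 + α, -β; γ, 1 + α], ?_, ?_⟩
    · rw [Matrix.det_fin_two_of]
      have : (1 + α) * (1 + α) - -β * γ = 2 * (1 + α) := by linear_combination h00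
      rw [this]
      exact h2.mul hu
    · rw [Matrix.mul_fin_two, Matrix.mul_fin_two]
      congr 1
      ext i j
      fin_cases i <;> fin_cases j <;> simp
      · linear_combination h00
      · ring
      · ring
      · linear_combination -h00
  · refine ⟨!![β, 1 - α; 1 - α, -γ], ?_, ?_⟩
    · rw [Matrix.det_fin_two_of]
      have : β * -γ - (1 - α) * (1 - α) = -(2 * (1 - α)) := by linear_combination -h00
      rw [this]
      exact (h2.mul hu).neg
    · rw [Matrix.mul_fin_two, Matrix.mul_fin_two]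
      congr 1
      ext i j
      fin_cases i <;> fin_cases j <;> simp
      · ring
      · linear_combination -h00
      · linear_combination h00
      · ring

/-- if the matrices `M σ` span `M₂(R)` over the local ring `R`, some product `b(σ) c(τ)` of
off-diagonal entries is a unit. -/
theorem exists_isUnit_offdiag {G : Type*} (M : G → Matrix (Fin 2) (Fin 2) R)
    (hspan : Submodule.span R (Set.range M) = ⊤) :
    ∃ σ τ : G, IsUnit ((M σ) 0 1 * (M τ) 1 0) := by
  by_contra hcon
  push Not at hcon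
  have hm : ∀ σ τ : G, (M σ) 0 1 * (M τ) 1 0 ∈ IsLocalRing.maximalIdeal R := hcon
  have h1 : ∀ X ∈ Submodule.span R (Set.range M), ∀ τ : G,
      X 0 1 * (M τ) 1 0 ∈ IsLocalRing.maximalIdeal R := by
    intro X hX τ
    induction hX using Submodule.span_induction with
    | mem X hX =>
      obtain ⟨σ, rfl⟩ := hX
      exact hm σ τ
    | zero => simp
    | add X Y _ _ hX hY =>
      rw [Matrix.add_apply, add_mul]
      exact Ideal.add_mem _ hX hY
    | smul r X _ hX =>
      rw [Matrix.smul_apply, smul_eq_mul, mul_assoc]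
      exact Ideal.mul_mem_left _ _ hX
  have h2 : ∀ X : Matrix (Fin 2) (Fin 2) R, ∀ Y ∈ Submodule.span R (Set.range M),
      X 0 1 * Y 1 0 ∈ IsLocalRing.maximalIdeal R := by
    intro X Y hY
    induction hY using Submodule.span_induction with
    | mem Y hY =>
      obtain ⟨τ, rfl⟩ := hY
      exact h1 X (by rw [hspan]; exact Submodule.mem_top) τ
    | zero => simp
    | add Y Z _ _ hY hZ =>
      rw [Matrix.add_apply, mul_add]
      exact Ideal.add_mem _ hY hZ
    | smul r Y _ hY =>
      rw [Matrix.smul_apply, smul_eq_mul, mul_left_comm]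
      exact Ideal.mul_mem_left _ _ hY
  have h3 := h2 (Matrix.single 0 1 1) (Matrix.single 1 0 1) (by rw [hspan]; exact Submodule.mem_top)
  rw [Matrix.single_apply_same, Matrix.single_apply_same, mul_one] at h3
  exact (IsLocalRing.maximalIdeal R).ne_top_iff_one.mp (IsLocalRing.maximalIdeal.isMaximal R).ne_top h3

/-- conjugation preserves "the matrices span everything". -/
theorem span_range_conj_eq_top {G : Type*} (M : G → Matrix (Fin 2) (Fin 2) R)
    (hspan : Submodule.span R (Set.range M) = ⊤) (P Q : Matrix (Fin 2) (Fin 2) R)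
    (hQP : Q * P = 1) :
    Submodule.span R (Set.range fun σ => Q * M σ * P) = ⊤ := by
  let f : Matrix (Fin 2) (Fin 2) R →ₗ[R] Matrix (Fin 2) (Fin 2) R :=
    (LinearMap.mulLeft R Q).comp (LinearMap.mulRight R P)
  have hf : ∀ X, f X = Q * (X * P) := fun X => rfl
  have himg : (Set.range fun σ => Q * M σ * P) = f '' Set.range M := by
    ext X
    constructor
    · rintro ⟨σ, rfl⟩
      exact ⟨M σ, ⟨σ, rfl⟩, by rw [hf]; exact (Matrix.mul_assoc _ _ _).symm⟩
    · rintro ⟨_, ⟨σ, rfl⟩, rfl⟩
      exact ⟨σ, by rw [hf]; exact Matrix.mul_assoc _ _ _⟩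
  rw [himg, ← Submodule.map_span, hspan, Submodule.map_top, LinearMap.range_eq_top]
  intro X
  refine ⟨P * X * Q, ?_⟩
  rw [hf, Matrix.mul_assoc, Matrix.mul_assoc, hQP, Matrix.mul_one, ← Matrix.mul_assoc, hQP,
    Matrix.one_mul]

end Involution

/-! ### the descent -/

section Descent

variable {G : Type*} [Group G] {T : Type*} [CommRing T] {ι : Type*} {R : ι → Type*}
  [∀ i, CommRing (R i)]

/-- jointly injective families detect equality of matrices. -/
theorem matrix_eq_of_forall_map_eq (ψ : ∀ i, T →+* R i)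
    (hinj : ∀ t : T, (∀ i, ψ i t = 0) → t = 0) {A B : Matrix (Fin 2) (Fin 2) T}
    (h : ∀ i, A.map (ψ i) = B.map (ψ i)) : A = B := by
  ext j k
  rw [← sub_eq_zero]
  refine hinj _ fun i => ?_
  have := congrFun (congrFun (h i) j) k
  simp only [Matrix.map_apply] at this
  rw [map_sub, this, sub_self]

/-- the diagonal matrix `diag(1, l)`. -/
abbrev dg {A : Type*} [CommRing A] (l : A) : Matrix (Fin 2) (Fin 2) A := !![1, 0; 0, l]

theorem dg_mul_dg {A : Type*} [CommRing A] (l l' : A) : dg l * dg l' = dg (l * l') := by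
  rw [dg, dg, Matrix.mul_fin_two]
  simp

theorem dg_one {A : Type*} [CommRing A] : dg (1 : A) = 1 := by
  rw [dg]
  exact Matrix.one_fin_two.symm

theorem det_dg {A : Type*} [CommRing A] (l : A) : (dg l).det = l := by
  rw [dg, Matrix.det_fin_two_of]
  ring

/-- **Wiles' descent.** -/
theorem exists_descent
    (ψ : ∀ i, T →+* R i) (hinj : ∀ t : T, (∀ i, ψ i t = 0) → t = 0)
    (M : ∀ i, G →* Matrix (Fin 2) (Fin 2) (R i)) (c : G)
    (hc : ∀ i, M i c = !![1, 0; 0, -1])
    (tr : G → T) (htr : ∀ i σ, ψ i (tr σ) = (M i σ).trace)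
    (h2 : IsUnit (2 : T))
    (σ₀ τ₀ : G)
    (hunit : ∀ x : T, (∀ i, ψ i x = (M i σ₀) 0 1 * (M i τ₀) 1 0) → IsUnit x) :
    ∃ (Mat : G →* Matrix (Fin 2) (Fin 2) T) (lam : ∀ i, (R i)ˣ),
      (∀ i σ, dg (lam i : R i) * M i σ = (Mat σ).map (ψ i) * dg (lam i : R i)) ∧
      (∀ σ, (Mat σ).trace = tr σ) ∧ (∀ i σ, ψ i (Mat σ).det = (M i σ).det) := by
  classical
  obtain ⟨h, hh⟩ : ∃ h : T, h * 2 = 1 := ⟨↑(h2.unit⁻¹), by
    have := h2.unit.inv_mul
    rwa [IsUnit.unit_spec] at this⟩
  -- the entries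
  set a : G → T := fun σ => h * (tr σ + tr (σ * c)) with ha_def
  set d : G → T := fun σ => h * (tr σ - tr (σ * c)) with hd_def
  have hψh : ∀ i, ψ i h * 2 = 1 := fun i => by
    have := congrArg (ψ i) hh
    rwa [map_mul, map_ofNat, map_one] at this
  have htrc : ∀ i σ, ψ i (tr (σ * c)) = (M i σ) 0 0 - (M i σ) 1 1 := by
    intro i σ
    rw [htr, map_mul, hc, Matrix.trace_fin_two]
    simp [Matrix.mul_apply, Fin.sum_univ_two]
    ring
  have ha : ∀ i σ, ψ i (a σ) = (M i σ) 0 0 := by
    intro i σ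
    rw [ha_def]
    simp only [map_mul, map_add]
    rw [htr, htrc, Matrix.trace_fin_two]
    linear_combination ((M i σ) 0 0) * hψh i
  have hd : ∀ i σ, ψ i (d σ) = (M i σ) 1 1 := by
    intro i σ
    rw [hd_def]
    simp only [map_mul, map_sub]
    rw [htr, htrc, Matrix.trace_fin_two]
    linear_combination ((M i σ) 1 1) * hψh i
  set x : G → G → T := fun σ τ => a (σ * τ) - a σ * a τ with hx_def
  have hx : ∀ i σ τ, ψ i (x σ τ) = (M i σ) 0 1 * (M i τ) 1 0 := by
    intro i σ τ
    rw [hx_def]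
    simp only [map_sub, map_mul]
    rw [ha, ha, ha, map_mul, Matrix.mul_apply, Fin.sum_univ_two]
    ring
  -- the units
  obtain ⟨u, hu⟩ : ∃ u : Tˣ, ∀ i, ψ i u = (M i σ₀) 0 1 * (M i τ₀) 1 0 :=
    ⟨(hunit (x σ₀ τ₀) fun i => hx i σ₀ τ₀).unit, fun i => hx i σ₀ τ₀⟩
  have hlam : ∀ i, IsUnit ((M i σ₀) 0 1) := fun i => by
    have h1 : IsUnit (ψ i (u : T)) := (u.isUnit).map (ψ i)
    rw [hu i] at h1
    exact isUnit_of_mul_isUnit_left h1
  set lam : ∀ i, (R i)ˣ := fun i => (hlam i).unit with hlam_def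
  have hlamv : ∀ i, ((lam i : (R i)ˣ) : R i) = (M i σ₀) 0 1 := fun i => rfl
  have hψu : ∀ i, ψ i ((u⁻¹ : Tˣ) : T) * ((M i σ₀) 0 1 * (M i τ₀) 1 0) = 1 := by
    intro i
    rw [← hu i, ← map_mul, Units.inv_mul, map_one]
  set Mat₀ : G → Matrix (Fin 2) (Fin 2) T :=
    fun σ => !![a σ, x σ τ₀ * ((u⁻¹ : Tˣ) : T); x σ₀ σ, d σ] with hMat₀
  have key : ∀ i σ, dg (lam i : R i) * M i σ = (Mat₀ σ).map (ψ i) * dg (lam i : R i) := by
    intro i σ
    rw [hlamv, hMat₀]
    ext j k
    fin_cases j <;> fin_cases k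
    · simp [Matrix.mul_apply, Fin.sum_univ_two, ha]
    · simp [Matrix.mul_apply, Fin.sum_univ_two, hx]
      linear_combination (-(M i σ) 0 1) * hψu i
    · simp [Matrix.mul_apply, Fin.sum_univ_two, hx]
    · simp [Matrix.mul_apply, Fin.sum_univ_two, hd]
      ring
  have hdginv : ∀ i, dg (lam i : R i) * dg (((lam i)⁻¹ : (R i)ˣ) : R i) = 1 := by
    intro i
    rw [dg_mul_dg, Units.mul_inv, dg_one]
  have hcancel : ∀ i (A B : Matrix (Fin 2) (Fin 2) (R i)),
      A * dg (lam i : R i) = B * dg (lam i : R i) → A = B := by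
    intro i A B hAB
    have := congrArg (· * dg (((lam i)⁻¹ : (R i)ˣ) : R i)) hAB
    simp only [Matrix.mul_assoc] at this
    rwa [hdginv, Matrix.mul_one, Matrix.mul_one] at this
  have hmul : ∀ σ τ, Mat₀ (σ * τ) = Mat₀ σ * Mat₀ τ := by
    intro σ τ
    refine matrix_eq_of_forall_map_eq ψ hinj fun i => ?_
    apply hcancel i
    rw [← key, map_mul, ← Matrix.mul_assoc, key, Matrix.mul_assoc, key, ← Matrix.mul_assoc,
      ← RingHom.mapMatrix_apply, ← RingHom.mapMatrix_apply, ← RingHom.mapMatrix_apply, map_mul]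
  have hone : Mat₀ 1 = 1 := by
    refine matrix_eq_of_forall_map_eq ψ hinj fun i => ?_
    apply hcancel i
    rw [← key, map_one, Matrix.mul_one, ← RingHom.mapMatrix_apply, map_one, Matrix.one_mul]
  refine ⟨{ toFun := Mat₀, map_one' := hone, map_mul' := hmul }, lam, key, ?_, ?_⟩
  · intro σ
    show (Mat₀ σ).trace = tr σ
    rw [hMat₀, Matrix.trace_fin_two_of, ha_def, hd_def]
    linear_combination (tr σ) * hh
  · intro i σ
    show ψ i (Mat₀ σ).det = (M i σ).det
    have h1 := congrArg Matrix.det (key i σ)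
    rw [Matrix.det_mul, Matrix.det_mul, det_dg, ← RingHom.mapMatrix_apply, ← RingHom.map_det,
      mul_comm] at h1
    exact ((lam i).isUnit.mul_left_inj.mp h1).symm

end Descent

end Fermat.Agent.S43lib.B2
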