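/-
S43lib / B2 / Family (helper5).  **A Galois representation over `T` from a jointly injective
finite family of points `ψ k : T → R k` carrying representations with Frobenius traces in `T`.**

`T` a local algebra over the noetherian local ring `𝒪` of residue characteristic `p` odd;
`ψ k : T →ₐ[𝒪] R k` (`k` in a finite set) jointly injective, `R k` complete DVRs, finite over `𝒪`;
`ρ' k` over `R k` with `charpoly ρ' k (Frob_ℓ) = X² - ψ k (π (t ℓ)) X + ℓ` for the good primes `ℓ`;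
one of the `ρ' k` residually absolutely irreducible.  Then there is `ρ` over `T` with
`charpoly ρ (Frob_ℓ) = X² - π (t ℓ) X + ℓ`.

Steps: traces of all `σ ∈ G_ℚ` lie in `T` (weak Chebotarev + closedness of `T` in `∏ R k`), Wiles'
2×2 descent with the complex conjugation, adic continuity from Artin–Rees.
-/
import Fermat.Agent.S43lib.B2.Wiles
import Fermat.Agent.S43lib.B2.Closed
import Fermat.Agent.S31lib.TC.TraceCompare
import Fermat.Agent.S31lib.RG.Rigidity
import Fermat.Agent.S32lib.Lat.Local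
import Fermat.Agent.S58lib.Cmp.Conj
import Fermat.Agent.S34lib.TC.Unip

set_option autoImplicit false
set_option linter.unusedSectionVars false
set_option linter.unusedVariables false
set_option linter.style.haveILetI false

noncomputable section

namespace Fermat.Agent.S43lib.B2

open Polynomial IsLocalRing Matrix Fermat.Agent.S31lib.TC Fermat.Agent.S31lib.RG

/-- `ℚ̄` -/
local notation "Qb" => AlgebraicClosure ℚ
/-- `G_ℚ` -/
local notation "GQ" => (AlgebraicClosure ℚ ≃ₐ[ℚ] AlgebraicClosure ℚ)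

/-! ### small lemmas -/

/-- the entries of a product `P * X * Q` lie in an ideal containing the entries of `X`. -/
theorem entries_mem_of_mul_mul {A : Type*} [CommRing A] (I : Ideal A)
    (P X Q : Matrix (Fin 2) (Fin 2) A) (hX : ∀ i j, X i j ∈ I) (i j : Fin 2) :
    (P * X * Q) i j ∈ I := by
  rw [Matrix.mul_apply]
  refine Ideal.sum_mem _ fun b _ => Ideal.mul_mem_right _ _ ?_
  rw [Matrix.mul_apply]
  exact Ideal.sum_mem _ fun a _ => Ideal.mul_mem_left _ _ (hX a b)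

/-- `2` is a unit in a local ring of odd residue characteristic. -/
theorem isUnit_two_of_odd {A : Type*} [CommRing A] [IsLocalRing A] {p : ℕ} (hp : p.Prime)
    (hp2 : p ≠ 2) (hpA : (p : A) ∈ maximalIdeal A) : IsUnit (2 : A) := by
  by_contra h2
  have h2m : (2 : A) ∈ maximalIdeal A := h2
  obtain ⟨m, hm⟩ := hp.odd_of_ne_two hp2
  have h1 : (1 : A) = (p : A) - 2 * (m : A) := by
    rw [hm]
    push_cast
    ring
  have : (1 : A) ∈ maximalIdeal A := by
    rw [h1]
    exact Ideal.sub_mem _ hpA (Ideal.mul_mem_right _ _ h2m)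
  exact (maximalIdeal A).ne_top_iff_one.mp (maximalIdeal.isMaximal A).ne_top this

/-! ### traces -/

section Traces

variable {p : ℕ}
  {𝒪 : Type} [CommRing 𝒪] [IsNoetherianRing 𝒪] [IsLocalRing 𝒪]
  {T : Type} [CommRing T] [Algebra 𝒪 T]
  {B : Type*} [CommRing B] (π : B →+* T) (good : ℕ → Prop) (t : ℕ → B)
  {κ : Type} [Finite κ] (R : κ → Type) [∀ k, CommRing (R k)] [∀ k, IsDomain (R k)]
  [∀ k, IsDiscreteValuationRing (R k)] [∀ k, Algebra 𝒪 (R k)] [∀ k, Module.Finite 𝒪 (R k)]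
  (ψ : ∀ k, T →ₐ[𝒪] R k)

/-- the product map `T → ∏ R k`. -/
def prodMap : T →ₗ[𝒪] (∀ k, R k) := LinearMap.pi fun k => (ψ k).toLinearMap

@[simp] theorem prodMap_apply (x : T) (k : κ) : prodMap R ψ x k = ψ k x := rfl

/-- the level fields of a finite family, modulo `p ^ m`. -/
theorem exists_level_family (hp0 : ∀ k, (p : R k) ≠ 0) (ρ' : ∀ k, GaloisRepAdic (R k)) (m : ℕ) :
    ∃ L : IntermediateField ℚ Qb, FiniteDimensional ℚ L ∧
      ∀ k, ∀ g : GQ, (∀ x ∈ L, g x = x) → ∀ v : (ρ' k).V, (ρ' k).ρ g v - v ∈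
        (Ideal.span {(p : R k) ^ m}) • (⊤ : Submodule (R k) (ρ' k).V) := by
  classical
  have hlev : ∀ k, ∃ L : IntermediateField ℚ Qb, FiniteDimensional ℚ L ∧
      ∀ g : GQ, (∀ x ∈ L, g x = x) → ∀ v : (ρ' k).V, (ρ' k).ρ g v - v ∈
        (Ideal.span {(p : R k) ^ m}) • (⊤ : Submodule (R k) (ρ' k).V) := by
    intro k
    obtain ⟨n, hn⟩ := exists_pow_le_span (pow_ne_zero m (hp0 k))
    obtain ⟨L, hLfd, hL⟩ := (ρ' k).isAdicContinuous n
    exact ⟨L, hLfd, fun g hg v => Submodule.smul_mono hn le_rfl (hL g hg v)⟩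
  choose Li hLifd hLi using hlev
  haveI : ∀ k, FiniteDimensional ℚ (Li k) := hLifd
  refine ⟨⨆ k, Li k, inferInstance, fun k g hg v => hLi k g (fun x hx => hg x ?_) v⟩
  exact (le_iSup Li k) hx

/-- **the traces lie in `T`.** -/
theorem exists_trace_lift (hp𝒪 : (p : 𝒪) ∈ maximalIdeal 𝒪) (hp0 : ∀ k, (p : R k) ≠ 0)
    (ρ' : ∀ k, GaloisRepAdic (R k))
    (hρ' : ∀ k ℓ, good ℓ → ∀ A : ValuationSubring Qb, A.LiesOverPrime ℓ → ∀ φ : GQ,
      A.IsFrobeniusAt φ ℓ →
        LinearMap.charpoly ((ρ' k).ρ φ) = X ^ 2 - C (ψ k (π (t ℓ))) * X + C (ℓ : R k))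
    (hWC : ∀ L : IntermediateField ℚ Qb, FiniteDimensional ℚ L → ∀ σ : GQ,
      ∃ (ℓ : ℕ) (A : ValuationSubring Qb) (φ : GQ) (j : ℕ), good ℓ ∧ A.LiesOverPrime ℓ ∧
        A.IsFrobeniusAt φ ℓ ∧ ∀ x ∈ L, (φ ^ j) x = σ x)
    (σ : GQ) :
    ∃ x : T, ∀ k, ψ k x = LinearMap.trace (R k) (ρ' k).V ((ρ' k).ρ σ) := by
  classical
  haveI : Fintype κ := Fintype.ofFinite κ
  set x₀ : ∀ k, R k := fun k => LinearMap.trace (R k) (ρ' k).V ((ρ' k).ρ σ) with hx₀
  have hmem : x₀ ∈ LinearMap.range (prodMap R ψ) := by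
    refine mem_range_of_forall_approx (prodMap R ψ) hp𝒪 x₀ fun n => ?_
    obtain ⟨L, hLfd, hL⟩ := exists_level_family R hp0 ρ' n
    obtain ⟨ℓ, A, φ, j, hg, hA, hF, hφ⟩ := hWC L hLfd σ
    refine ⟨powTr (π (t ℓ)) (ℓ : T) j, ?_⟩
    have hk : ∀ k, ∃ z : R k, x₀ k - ψ k (powTr (π (t ℓ)) (ℓ : T) j) = (p : R k) ^ n * z := by
      intro k
      have h1 := trace_sub_powTr_mem (ρ' k) (Ideal.span {(p : R k) ^ n}) L (hL k) hφ
        (hρ' k ℓ hg A hA φ hF)
      have h2 : ψ k (powTr (π (t ℓ)) (ℓ : T) j) = powTr (ψ k (π (t ℓ))) (ℓ : R k) j := by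
        have := map_powTr ((ψ k : T →ₐ[𝒪] R k) : T →+* R k) (π (t ℓ)) (ℓ : T) j
        rw [map_natCast] at this
        exact this
      rw [h2]
      exact Ideal.mem_span_singleton'.mp h1 |>.imp fun z hz => by rw [← hz, mul_comm]
    choose z hz using hk
    refine ⟨z, funext fun k => ?_⟩
    rw [Pi.sub_apply, prodMap_apply, hz k, Pi.smul_apply, Algebra.smul_def, map_pow, map_natCast]
  obtain ⟨x, hx⟩ := hmem
  exact ⟨x, fun k => by rw [← prodMap_apply R ψ x k, hx]⟩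

end Traces

/-! ### the representation -/

section Rep

variable {p : ℕ}
  {𝒪 : Type} [CommRing 𝒪] [IsNoetherianRing 𝒪] [IsLocalRing 𝒪]
  {T : Type} [CommRing T] [IsLocalRing T] [Algebra 𝒪 T] [IsLocalHom (algebraMap 𝒪 T)]
  {B : Type*} [CommRing B] (π : B →+* T) (good : ℕ → Prop) (t : ℕ → B)
  {κ : Type} [Finite κ] (R : κ → Type) [∀ k, CommRing (R k)] [∀ k, IsDomain (R k)]
  [∀ k, IsDiscreteValuationRing (R k)] [∀ k, IsAdicComplete (maximalIdeal (R k)) (R k)]
  [∀ k, Algebra 𝒪 (R k)] [∀ k, Module.Finite 𝒪 (R k)]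
  (ψ : ∀ k, T →ₐ[𝒪] R k)

/-- the representation on `T²` given by matrices. -/
def repOfMat (Mat : GQ →* Matrix (Fin 2) (Fin 2) T) : GQ →* Module.End T (Fin 2 → T) :=
  ((Matrix.toLinAlgEquiv' : Matrix (Fin 2) (Fin 2) T ≃ₐ[T] Module.End T (Fin 2 → T)) :
    Matrix (Fin 2) (Fin 2) T →* Module.End T (Fin 2 → T)).comp Mat

theorem repOfMat_apply (Mat : GQ →* Matrix (Fin 2) (Fin 2) T) (σ : GQ) :
    repOfMat Mat σ = Matrix.toLin' (Mat σ) := rfl

theorem charpoly_repOfMat (Mat : GQ →* Matrix (Fin 2) (Fin 2) T) (σ : GQ) :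
    LinearMap.charpoly (repOfMat Mat σ) =
      X ^ 2 - C (Mat σ).trace * X + C (Mat σ).det := by
  rw [repOfMat_apply, ← LinearMap.charpoly_toMatrix (Matrix.toLin' (Mat σ)) (Pi.basisFun T (Fin 2)),
    LinearMap.toMatrix_eq_toMatrix', LinearMap.toMatrix'_toLin', Matrix.charpoly_fin_two]

/-- **the representation over `T`.** -/
theorem exists_galoisRepAdic_of_family (hp : p.Prime) (hp2 : p ≠ 2)
    (hp𝒪 : (p : 𝒪) ∈ maximalIdeal 𝒪)
    (hψloc : ∀ k, ∀ x ∈ maximalIdeal T, ψ k x ∈ maximalIdeal (R k))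
    (hinj : ∀ x : T, (∀ k, ψ k x = 0) → x = 0)
    (hp0 : ∀ k, (p : R k) ≠ 0)
    (ρ' : ∀ k, GaloisRepAdic (R k))
    (hρ' : ∀ k ℓ, good ℓ → ∀ A : ValuationSubring Qb, A.LiesOverPrime ℓ → ∀ φ : GQ,
      A.IsFrobeniusAt φ ℓ →
        LinearMap.charpoly ((ρ' k).ρ φ) = X ^ 2 - C (ψ k (π (t ℓ))) * X + C (ℓ : R k))
    (S₀ : Finset ℕ) (hS₀ : ∀ ℓ : ℕ, ℓ.Prime → ℓ ∉ S₀ → good ℓ)
    (k₀ : κ) (habs : (ρ' k₀).residual.IsAbsolutelyIrreducible) :
    ∃ ρ : GaloisRepAdic T, ∀ ℓ, good ℓ → ∀ A : ValuationSubring Qb, A.LiesOverPrime ℓ →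
      ∀ φ : GQ, A.IsFrobeniusAt φ ℓ →
        LinearMap.charpoly (ρ.ρ φ) = X ^ 2 - C (π (t ℓ)) * X + C (ℓ : T) := by
  classical
  haveI : Fact p.Prime := ⟨hp⟩
  haveI : Fintype κ := Fintype.ofFinite κ
  have hWC := Fermat.Agent.S31lib.WC.brickWC_good good S₀ hS₀
  -- `p` in the maximal ideals, `2` a unit
  have hpT : (p : T) ∈ maximalIdeal T := by
    have h1 : (p : T) = algebraMap 𝒪 T (p : 𝒪) := (map_natCast _ p).symm
    rw [h1]
    exact map_nonunit (algebraMap 𝒪 T) _ hp𝒪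
  have hpR : ∀ k, (p : R k) ∈ maximalIdeal (R k) := fun k => by
    have h1 : (p : R k) = ψ k (p : T) := (map_natCast (ψ k) p).symm
    rw [h1]
    exact hψloc k _ hpT
  have h2T : IsUnit (2 : T) := isUnit_two_of_odd hp hp2 hpT
  have h2R : ∀ k, IsUnit (2 : R k) := fun k => isUnit_two_of_odd hp hp2 (hpR k)
  -- the traces
  have htr := exists_trace_lift π good t R ψ hp𝒪 hp0 ρ' hρ' hWC
  choose trT htrT using htr
  -- bases and matrices
  let b : ∀ k, Module.Basis (Fin 2) (R k) (ρ' k).V :=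
    fun k => Module.finBasisOfFinrankEq (R k) (ρ' k).V (ρ' k).finrank_eq
  have hCC : ∀ k, matOf (ρ' k) (b k) complexConjugation *
      matOf (ρ' k) (b k) complexConjugation = 1 := fun k => by
    rw [← map_mul, complexConjugation_mul_self, map_one]
  have hdetC : ∀ k, (matOf (ρ' k) (b k) complexConjugation).det = -1 := fun k => by
    rw [matOf_apply, LinearMap.det_toMatrix]
    exact Fermat.Agent.S58lib.Cmp.det_complexConjugation p (hpR k) (ρ' k) S₀
      (fun ℓ hℓ hℓS A hA φ hφ => ⟨_, hρ' k ℓ (hS₀ ℓ hℓ hℓS) A hA φ hφ⟩)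
  have hP := fun k => exists_conj_involution (h2R k) _ (hCC k) (hdetC k)
  choose P hPdet hPC using hP
  have hPQ : ∀ k, P k * (P k)⁻¹ = 1 := fun k => Matrix.mul_nonsing_inv _ (hPdet k)
  have hQP : ∀ k, (P k)⁻¹ * P k = 1 := fun k => Matrix.nonsing_inv_mul _ (hPdet k)
  -- the conjugated representations
  let M : ∀ k, GQ →* Matrix (Fin 2) (Fin 2) (R k) := fun k =>
    { toFun := fun σ => (P k)⁻¹ * matOf (ρ' k) (b k) σ * P k
      map_one' := by rw [map_one, Matrix.mul_one, hQP]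
      map_mul' := fun σ τ => by
        rw [map_mul]
        calc (P k)⁻¹ * (matOf (ρ' k) (b k) σ * matOf (ρ' k) (b k) τ) * P k
            = (P k)⁻¹ * matOf (ρ' k) (b k) σ * (P k * (P k)⁻¹) * matOf (ρ' k) (b k) τ * P k := by
              rw [hPQ, Matrix.mul_one]
              simp only [Matrix.mul_assoc]
          _ = _ := by simp only [Matrix.mul_assoc] }
  have hM : ∀ k σ, M k σ = (P k)⁻¹ * matOf (ρ' k) (b k) σ * P k := fun k σ => rfl
  have hMc : ∀ k, M k complexConjugation = !![1, 0; 0, -1] := fun k => by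
    rw [hM, Matrix.mul_assoc, hPC k, ← Matrix.mul_assoc, hQP, Matrix.one_mul]
  have hMtr : ∀ k σ, (M k σ).trace = LinearMap.trace (R k) (ρ' k).V ((ρ' k).ρ σ) := by
    intro k σ
    rw [hM, Matrix.trace_mul_comm, ← Matrix.mul_assoc, hPQ, Matrix.one_mul, matOf_apply,
      ← LinearMap.trace_eq_matrix_trace (R k) (b k)]
  have hMdet : ∀ k σ, (M k σ).det = LinearMap.det ((ρ' k).ρ σ) := by
    intro k σ
    rw [hM, Matrix.det_mul, Matrix.det_mul, mul_right_comm, ← Matrix.det_mul, hQP, Matrix.det_one,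
      one_mul, matOf_apply, LinearMap.det_toMatrix]
  have htr' : ∀ k σ, (ψ k : T →+* R k) (trT σ) = (M k σ).trace := fun k σ => by
    rw [hMtr]
    exact htrT σ k
  -- the unit
  have hspan := span_matOf_eq_top (ρ' k₀) (b k₀) habs
  have hspan' := span_range_conj_eq_top (fun σ => matOf (ρ' k₀) (b k₀) σ) hspan (P k₀) (P k₀)⁻¹
    (hQP k₀)
  obtain ⟨σ₀, τ₀, hunit₀⟩ := exists_isUnit_offdiag (fun σ => M k₀ σ) hspan'
  have hunit : ∀ x : T, (∀ k, (ψ k : T →+* R k) x = (M k σ₀) 0 1 * (M k τ₀) 1 0) → IsUnit x := by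
    intro x hx
    by_contra hxu
    have h1 : ψ k₀ x ∈ maximalIdeal (R k₀) := hψloc k₀ x hxu
    have h2 : ψ k₀ x = (M k₀ σ₀) 0 1 * (M k₀ τ₀) 1 0 := hx k₀
    rw [h2] at h1
    exact h1 hunit₀
  have hinj' : ∀ x : T, (∀ k, (ψ k : T →+* R k) x = 0) → x = 0 := hinj
  obtain ⟨Mat, lam, hkey, htrace, hdet⟩ := exists_descent (fun k => (ψ k : T →+* R k)) hinj' M
    complexConjugation hMc trT htr' h2T σ₀ τ₀ hunit
  -- Artin–Rees
  obtain ⟨c, hc⟩ := exists_artinRees (prodMap R ψ) (p : 𝒪)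
  -- the representation
  refine ⟨{ V := Fin 2 → T
            finrank_eq := Module.finrank_fin_fun T
            ρ := repOfMat Mat
            isAdicContinuous := ?_ }, ?_⟩
  · intro n
    obtain ⟨L, hLfd, hL⟩ := exists_level_family R hp0 ρ' (n + c)
    refine ⟨L, hLfd, fun g hg v => ?_⟩
    -- the entries of `Mat g - 1`
    have hent : ∀ i j, (Mat g - 1) i j ∈ maximalIdeal T ^ n := by
      intro i j
      have hk : ∀ k, ∃ z : R k, ψ k ((Mat g - 1) i j) = (p : R k) ^ (n + c) * z := by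
        intro k
        have h1 : ∀ i j, (matOf (ρ' k) (b k) g - 1) i j ∈ Ideal.span {(p : R k) ^ (n + c)} := by
          intro i j
          rw [Fermat.Agent.S32lib.matOf_sub_one_apply]
          exact Fermat.Agent.S29lib.Dvr.repr_mem_of_mem_smul_top (b k) _ (hL k g hg (b k j)) i
        have h2 : ∀ i j, (M k g - 1) i j ∈ Ideal.span {(p : R k) ^ (n + c)} := by
          have e : M k g - 1 = (P k)⁻¹ * (matOf (ρ' k) (b k) g - 1) * P k := by
            rw [Matrix.mul_sub, Matrix.sub_mul, Matrix.mul_one, hQP, hM]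
          rw [e]
          exact entries_mem_of_mul_mul _ _ _ _ h1
        have h3 : ((Mat g - 1).map (ψ k)) =
            dg (lam k : R k) * (M k g - 1) * dg (((lam k)⁻¹ : (R k)ˣ) : R k) := by
          have e1 : (Mat g - 1).map (ψ k) = (Mat g).map (ψ k) - 1 := by
            have := map_sub ((ψ k : T →+* R k).mapMatrix) (Mat g) 1
            rw [map_one] at this
            exact this
          have e2 : dg (lam k : R k) * dg (((lam k)⁻¹ : (R k)ˣ) : R k) = 1 := by
            rw [dg_mul_dg, Units.mul_inv, dg_one]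
          rw [e1, Matrix.mul_sub, Matrix.mul_one, Matrix.sub_mul, hkey k g, Matrix.mul_assoc, e2,
            Matrix.mul_one]
          rfl
        have h4 := entries_mem_of_mul_mul _ (dg (lam k : R k)) _
          (dg (((lam k)⁻¹ : (R k)ˣ) : R k)) h2 i j
        rw [← h3, Matrix.map_apply] at h4
        obtain ⟨z, hz⟩ := Ideal.mem_span_singleton'.mp h4
        exact ⟨z, by rw [← hz, mul_comm]⟩
      choose z hz using hk
      have h5 : prodMap R ψ ((Mat g - 1) i j) = (p : 𝒪) ^ (n + c) • z := by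
        funext k
        rw [prodMap_apply, hz k, Pi.smul_apply, Algebra.smul_def, map_pow, map_natCast]
      obtain ⟨t', ht'⟩ := hc n _ ⟨z, h5⟩
      have h6 : (Mat g - 1) i j = (p : 𝒪) ^ n • t' := by
        rw [← sub_eq_zero]
        refine hinj _ fun k => ?_
        have := congrFun ht' k
        rw [prodMap_apply, prodMap_apply] at this
        rw [map_sub, this, sub_self]
      rw [h6, Algebra.smul_def, map_pow, map_natCast]
      exact Ideal.mul_mem_right _ _ (Ideal.pow_mem_pow hpT n)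
    -- the vector
    have hv : repOfMat Mat g v - v = Matrix.toLin' (Mat g - 1) v := by
      rw [repOfMat_apply, map_sub, Matrix.toLin'_one, LinearMap.sub_apply, LinearMap.id_apply]
    rw [hv]
    refine Fermat.Agent.S29lib.Dvr.mem_smul_top_of_repr_mem (Pi.basisFun T (Fin 2)) _ fun i => ?_
    rw [Pi.basisFun_repr, Matrix.toLin'_apply, Matrix.mulVec, dotProduct]
    exact Ideal.sum_mem _ fun j _ => Ideal.mul_mem_right _ _ (hent i j)
  · intro ℓ hℓ A hA φ hφ
    show LinearMap.charpoly (repOfMat Mat φ) = _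
    rw [charpoly_repOfMat]
    have h1 : (Mat φ).trace = π (t ℓ) := by
      rw [htrace, ← sub_eq_zero]
      refine hinj _ fun k => ?_
      rw [map_sub, htrT φ k,
        trace_eq_of_charpoly (ρ' k).finrank_eq ((ρ' k).ρ φ) (hρ' k ℓ hℓ A hA φ hφ), sub_self]
    have h2 : (Mat φ).det = (ℓ : T) := by
      rw [← sub_eq_zero]
      refine hinj _ fun k => ?_
      have := hdet k φ
      rw [hMdet, Fermat.Agent.S34lib.det_eq_of_charpoly (ρ' k).finrank_eq ((ρ' k).ρ φ)
        (hρ' k ℓ hℓ A hA φ hφ)] at this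
      rw [map_sub, map_natCast]
      rw [sub_eq_zero]
      exact this
    rw [h1, h2]

end Rep

end Fermat.Agent.S43lib.B2
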