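/-
S43lib / B2 / ResIrr (helper5).  **The hypothesis `ResAbsIrr θ` of `nonempty_heckeGaloisRepDatum`
from a mod-`p` representation**: if `ρ₀ : G_ℚ → GL₂(𝔽_p)` (`p` odd) is irreducible with Frobenius
characteristic polynomials `X² - a_ℓ X + ℓ` (`a_ℓ ∈ ℤ`) off a finite set `S₀`, and
`θ(T_ℓ) = a_ℓ mod p` off `S₀`, then `ResAbsIrr θ`.
(The comparison machinery is helper3's `S58lib.Cmp`.)
-/
import Fermat.Agent.S43lib.B2.Datum
import Fermat.Agent.S58lib.Cmp.Hres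

set_option autoImplicit false
set_option linter.unusedSectionVars false
set_option linter.unusedVariables false
set_option linter.style.haveILetI false

noncomputable section

namespace Fermat.Agent.S43lib.B2

open CuspForm IsLocalRing Polynomial Fermat.Agent.S58lib.Cmp

/-- `ℚ̄` -/
local notation "Qb" => AlgebraicClosure ℚ
/-- `G_ℚ` -/
local notation "GQ" => (AlgebraicClosure ℚ ≃ₐ[ℚ] AlgebraicClosure ℚ)

/-- absolute irreducibility of the residual representation from the RESIDUAL Frobenius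
characteristic polynomials (the second half of `S58lib.Cmp.absIrr_of_modp`). -/
theorem absIrr_of_modp_residual (p : ℕ) [hpf : Fact p.Prime] (hp2 : p ≠ 2)
    (ρ₀ : ResidualGaloisRep (ZMod p)) (hirr : ρ₀.IsIrreducible)
    (a : ℕ → ℤ) (S₀ : Finset ℕ)
    (h₀ : ∀ ℓ : ℕ, ℓ.Prime → ℓ ∉ S₀ → ∀ A : ValuationSubring Qb, A.LiesOverPrime ℓ →
      ∀ φ : GQ, A.IsFrobeniusAt φ ℓ →
        LinearMap.charpoly (ρ₀.ρ φ) =
          X ^ 2 - C ((a ℓ : ℤ) : ZMod p) * X + C ((ℓ : ℕ) : ZMod p))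
    {O : Type} [CommRing O] [IsLocalRing O] (hpO : (p : O) ∈ maximalIdeal O)
    (ρ : GaloisRepAdic O)
    (hres : ∀ ℓ : ℕ, ℓ.Prime → ℓ ∉ S₀ → ∀ A : ValuationSubring Qb, A.LiesOverPrime ℓ →
      ∀ φ : GQ, A.IsFrobeniusAt φ ℓ →
        LinearMap.charpoly (ρ.residual.ρ φ) =
          X ^ 2 - C ((a ℓ : ℤ) : ResidueField O) * X + C ((ℓ : ℕ) : ResidueField O)) :
    ρ.residual.IsAbsolutelyIrreducible := by
  classical
  have hp : p.Prime := hpf.out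
  set k := ResidueField O with hk
  have hpk : ((p : ℕ) : k) = 0 := by
    have h1 : ((p : ℕ) : k) = residue O (p : O) := (map_natCast (residue O) p).symm
    rw [h1]
    exact (residue_eq_zero_iff _).mpr hpO
  haveI : CharP k p := (CharP.charP_iff_prime_eq_zero hp).mpr hpk
  let ι : ZMod p →+* k := ZMod.castHom (dvd_refl p) k
  have h2 : (2 : ZMod p) ≠ 0 := by
    intro h20
    have h3 : ((2 : ℕ) : ZMod p) = 0 := by exact_mod_cast h20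
    rw [ZMod.natCast_eq_zero_iff] at h3
    have := (Nat.prime_dvd_prime_iff_eq hp Nat.prime_two).mp h3
    exact hp2 this
  haveI := isHausdorff_maximalIdeal_field k
  have hcmp := charpoly_map_eq_of_frobenius ι
    (fun x hx => by
      rw [IsLocalRing.maximalIdeal_eq_bot, Ideal.mem_bot] at hx
      rw [hx, map_zero]
      exact Ideal.zero_mem _)
    (GaloisRepAdic.ofResidualGaloisRep ρ₀) (GaloisRepAdic.ofResidualGaloisRep ρ.residual) S₀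
    (fun ℓ hℓ hℓS A hA φ hφ => by
      show LinearMap.charpoly (ρ.residual.ρ φ) = (LinearMap.charpoly (ρ₀.ρ φ)).map ι
      rw [hres ℓ hℓ hℓS A hA φ hφ, h₀ ℓ hℓ hℓS A hA φ hφ, map_quad_int])
  exact isAbsolutelyIrreducible_of_charpoly_eq ι h2 ρ₀ hirr complexConjugation
    complexConjugation_mul_self (det_complexConjugation_modp p ρ₀ a S₀ h₀) ρ.residual
    (fun σ => hcmp σ)

variable {p : ℕ} {N : ℕ} [NeZero N] {S : Finset ℕ}
  {𝒪 : Type} [CommRing 𝒪] [IsDomain 𝒪] [IsDiscreteValuationRing 𝒪]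
  [IsAdicComplete (maximalIdeal 𝒪) 𝒪]
  (θ : heckeAlgebra N 2 (↑S : Set ℕ) →+* ResidueField 𝒪)
  [hint : Fact (HasIntegralStructure N 2)]

/-- **`ResAbsIrr θ` from a mod-`p` representation.** -/
theorem resAbsIrr_of_modp [hpf : Fact p.Prime] (hp2 : p ≠ 2) (hp𝒪 : (p : 𝒪) ∈ maximalIdeal 𝒪)
    (ρ₀ : ResidualGaloisRep (ZMod p)) (hirr : ρ₀.IsIrreducible)
    (a : ℕ → ℤ) (S₀ : Finset ℕ)
    (h₀ : ∀ ℓ : ℕ, ℓ.Prime → ℓ ∉ S₀ → ∀ A : ValuationSubring Qb, A.LiesOverPrime ℓ →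
      ∀ φ : GQ, A.IsFrobeniusAt φ ℓ →
        LinearMap.charpoly (ρ₀.ρ φ) =
          X ^ 2 - C ((a ℓ : ℤ) : ZMod p) * X + C ((ℓ : ℕ) : ZMod p))
    (hθ : ∀ (ℓ : ℕ) (hℓ : ℓ.Prime) (hℓN : ¬ ℓ ∣ N) (hℓS : ℓ ∉ (↑S : Set ℕ)), ℓ ∉ S₀ →
      θ (heckeAlgebra.T hℓ hℓN hℓS) = ((a ℓ : ℤ) : ResidueField 𝒪)) :
    ResAbsIrr θ := by
  classical
  intro A _ _ f hf ρ hρ
  have hN0 : N ≠ 0 := NeZero.ne N
  -- `p ∈ 𝔪_A`
  have hpT : (p : heckeLocal N (↑S : Set ℕ) 𝒪 θ) ∈ maximalIdeal (heckeLocal N (↑S : Set ℕ) 𝒪 θ) := by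
    have h1 : (p : heckeLocal N (↑S : Set ℕ) 𝒪 θ) =
        algebraMap 𝒪 (heckeLocal N (↑S : Set ℕ) 𝒪 θ) (p : 𝒪) := (map_natCast _ p).symm
    rw [h1]
    exact map_nonunit (algebraMap 𝒪 (heckeLocal N (↑S : Set ℕ) 𝒪 θ)) _ hp𝒪
  have hpA : (p : A) ∈ maximalIdeal A := by
    have h1 : (p : A) = f (p : heckeLocal N (↑S : Set ℕ) 𝒪 θ) := (map_natCast f p).symm
    rw [h1]
    exact hf _ hpT
  -- the enlarged exceptional set
  let S₁ : Finset ℕ := S₀ ∪ S ∪ N.primeFactors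
  have hS₀ : ∀ ℓ, ℓ ∉ S₁ → ℓ ∉ S₀ := fun ℓ h hm => h (by simp [S₁, hm])
  have hS : ∀ ℓ, ℓ ∉ S₁ → ℓ ∉ (↑S : Set ℕ) := fun ℓ h hm =>
    h (by simp only [S₁, Finset.mem_union]; exact Or.inl (Or.inr (Finset.mem_coe.mp hm)))
  have hNd : ∀ ℓ, ℓ.Prime → ℓ ∉ S₁ → ¬ ℓ ∣ N := fun ℓ hℓ h hd =>
    h (by
      simp only [S₁, Finset.mem_union]
      exact Or.inr (Nat.mem_primeFactors.mpr ⟨hℓ, hd, hN0⟩))
  refine absIrr_of_modp_residual p hp2 ρ₀ hirr a S₁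
    (fun ℓ hℓ hℓS A' hA' φ hφ => h₀ ℓ hℓ (hS₀ ℓ hℓS) A' hA' φ hφ) hpA ρ ?_
  intro ℓ hℓ hℓS A' hA' φ hφ
  show LinearMap.charpoly ((ρ.ρ φ).baseChange (ResidueField A)) = _
  rw [LinearMap.charpoly_baseChange, hρ ℓ hℓ (hNd ℓ hℓ hℓS) (hS ℓ hℓS) A' hA' φ hφ]
  -- the residue of `f (T_ℓ)`
  have h1 : residue (heckeLocal N (↑S : Set ℕ) 𝒪 θ)
      (heckeLocal.π N (↑S : Set ℕ) 𝒪 θ (heckeAlgebra.T hℓ (hNd ℓ hℓ hℓS) (hS ℓ hℓS))) =
      residue (heckeLocal N (↑S : Set ℕ) 𝒪 θ) ((a ℓ : ℤ) : heckeLocal N (↑S : Set ℕ) 𝒪 θ) := by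
    rw [heckeLocal_residue_π, hθ ℓ hℓ (hNd ℓ hℓ hℓS) (hS ℓ hℓS) (hS₀ ℓ hℓS), map_intCast,
      map_intCast]
  have h2 : heckeLocal.π N (↑S : Set ℕ) 𝒪 θ (heckeAlgebra.T hℓ (hNd ℓ hℓ hℓS) (hS ℓ hℓS)) -
      ((a ℓ : ℤ) : heckeLocal N (↑S : Set ℕ) 𝒪 θ) ∈
        maximalIdeal (heckeLocal N (↑S : Set ℕ) 𝒪 θ) := by
    rw [← residue_eq_zero_iff, map_sub, h1, sub_self]
  have h3 := hf _ h2
  rw [map_sub, map_intCast, ← residue_eq_zero_iff, map_sub, sub_eq_zero, map_intCast] at h3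
  simp only [Polynomial.map_add, Polynomial.map_sub, Polynomial.map_mul, Polynomial.map_pow,
    Polynomial.map_X, Polynomial.map_C]
  rw [show algebraMap A (ResidueField A) = residue A from rfl, h3]
  rfl

end Fermat.Agent.S43lib.B2
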