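/-
S43lib / B2 / Main (helper5).  **B2a, packaged for the consumers.**

* `factIntegralStructure` : the instance `Fact (HasIntegralStructure N 2)` from S23, which turns on
  the prelude's instances on `heckeLocal N S 𝒪 θ` (local ring, complete, local structure map).
* `exists_heckeGaloisRepDatum` : for `p` odd, `S ∋ p` containing the primes of `N`, and `θ` coming
  from an irreducible `ρ₀ : G_ℚ → GL₂(𝔽_p)` with Frobenius traces `a_ℓ ∈ ℤ` (`θ(T_ℓ) = a_ℓ mod p`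
  off a finite set), there is a `CuspForm.HeckeGaloisRepDatum N S 𝒪 θ (heckeLocal N S 𝒪 θ)`.
  The landed S31–S34 and S54 apply verbatim to it.
-/
import Fermat.Agent.S43lib.B2.ResIrr
import Fermat.Agent.S23

set_option autoImplicit false
set_option linter.unusedSectionVars false
set_option linter.style.haveILetI false

noncomputable section

namespace Fermat.Agent.S43lib.B2

open CuspForm IsLocalRing Polynomial

/-- `ℚ̄` -/
local notation "Qb" => AlgebraicClosure ℚ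
/-- `G_ℚ` -/
local notation "GQ" => (AlgebraicClosure ℚ ≃ₐ[ℚ] AlgebraicClosure ℚ)

/-- S23 as an instance: `S₂(Γ₀(N))` has an integral structure. -/
instance factIntegralStructure (N : ℕ) [NeZero N] : Fact (HasIntegralStructure N 2) :=
  ⟨Fermat.Agent.S23.result N⟩

variable {p : ℕ} {N : ℕ} [NeZero N] {S : Finset ℕ}
  {𝒪 : Type} [CommRing 𝒪] [IsDomain 𝒪] [IsDiscreteValuationRing 𝒪]
  [IsAdicComplete (maximalIdeal 𝒪) 𝒪] [Finite (ResidueField 𝒪)] [CharZero 𝒪]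

/-- **B2a, mod-`p` form.** -/
theorem exists_heckeGaloisRepDatum [Fact p.Prime] (hp2 : p ≠ 2)
    (hp𝒪 : (p : 𝒪) ∈ maximalIdeal 𝒪) (hpS : p ∈ S)
    (hNS : ∀ q : ℕ, q.Prime → q ∣ N → q ∈ S)
    (θ : heckeAlgebra N 2 (↑S : Set ℕ) →+* ResidueField 𝒪)
    (ρ₀ : ResidualGaloisRep (ZMod p)) (hirr : ρ₀.IsIrreducible)
    (a : ℕ → ℤ) (S₀ : Finset ℕ)
    (h₀ : ∀ ℓ : ℕ, ℓ.Prime → ℓ ∉ S₀ → ∀ A : ValuationSubring Qb, A.LiesOverPrime ℓ →
      ∀ φ : GQ, A.IsFrobeniusAt φ ℓ →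
        LinearMap.charpoly (ρ₀.ρ φ) =
          X ^ 2 - C ((a ℓ : ℤ) : ZMod p) * X + C ((ℓ : ℕ) : ZMod p))
    (hθ : ∀ (ℓ : ℕ) (hℓ : ℓ.Prime) (hℓN : ¬ ℓ ∣ N) (hℓS : ℓ ∉ (↑S : Set ℕ)), ℓ ∉ S₀ →
      θ (heckeAlgebra.T hℓ hℓN hℓS) = ((a ℓ : ℤ) : ResidueField 𝒪)) :
    Nonempty (HeckeGaloisRepDatum N (↑S : Set ℕ) 𝒪 θ (heckeLocal N (↑S : Set ℕ) 𝒪 θ)) :=
  nonempty_heckeGaloisRepDatum θ (Fact.out : p.Prime) hp2 hp𝒪 hpS hNS
    (resAbsIrr_of_modp θ hp2 hp𝒪 ρ₀ hirr a S₀ h₀ hθ)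

end Fermat.Agent.S43lib.B2
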