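/-
S43lib / B2 / DatumPi (helper5).  **B2a with the structure map pinned down.**

`nonempty_heckeGaloisRepDatum` / `exists_heckeGaloisRepDatum` only give `Nonempty (HeckeGaloisRepDatum …)`,
which hides that the datum constructed there has `π = heckeLocal.π N S 𝒪 θ`.  The consumers
(the level hub) need this to compute Frobenius traces in terms of `heckeLocal.π (T_ℓ)`.  Same proof,
last line `⟨{…}, rfl⟩`.
-/
import Fermat.Agent.S43lib.B2.Main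

set_option autoImplicit false
set_option linter.unusedSectionVars false
set_option linter.unusedVariables false
set_option linter.style.haveILetI false

noncomputable section

namespace Fermat.Agent.S43lib.B2

open CuspForm IsLocalRing Polynomial

/-- `ℚ̄` -/
local notation "Qb" => AlgebraicClosure ℚ
/-- `G_ℚ` -/
local notation "GQ" => (AlgebraicClosure ℚ ≃ₐ[ℚ] AlgebraicClosure ℚ)

variable {p : ℕ} {N : ℕ} [NeZero N] {S : Finset ℕ}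
  {𝒪 : Type} [CommRing 𝒪] [IsDomain 𝒪] [IsDiscreteValuationRing 𝒪]
  [IsAdicComplete (maximalIdeal 𝒪) 𝒪] [Finite (ResidueField 𝒪)] [CharZero 𝒪]

set_option synthInstance.maxHeartbeats 400000 in
set_option maxHeartbeats 4000000 in
/-- **B2a with the structure map pinned down**: the datum can be taken with `π = heckeLocal.π`. -/
theorem nonempty_heckeGaloisRepDatum_π
    (θ : heckeAlgebra N 2 (↑S : Set ℕ) →+* ResidueField 𝒪) (hp : p.Prime) (hp2 : p ≠ 2)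
    (hp𝒪 : (p : 𝒪) ∈ maximalIdeal 𝒪) (hpS : p ∈ S)
    (hNS : ∀ q : ℕ, q.Prime → q ∣ N → q ∈ S) (hres : ResAbsIrr θ) :
    ∃ H : HeckeGaloisRepDatum N (↑S : Set ℕ) 𝒪 θ (heckeLocal N (↑S : Set ℕ) 𝒪 θ),
      H.π = heckeLocal.π N (↑S : Set ℕ) 𝒪 θ := by
  classical
  haveI : Fact p.Prime := ⟨hp⟩
  haveI : IsReduced ↥(heckeAlgebra N 2 (↑S : Set ℕ)) :=
    Fermat.Agent.S31lib.PET.isReduced_heckeAlgebra'
      (fun q hq hqN => Finset.mem_coe.mpr (hNS q hq hqN))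
  haveI : Module.Finite ℤ ↥(heckeAlgebra N 2 (↑S : Set ℕ)) :=
    Fermat.Agent.S22.result N 2 (↑S : Set ℕ)
  -- the points
  obtain ⟨κ, hκ, O₁, i1, i2, i3, i4, i5, i6, i7, i8, i9, hinjO, ψ, hψ⟩ :=
    Fermat.Agent.S32lib.exists_characters_dvr (heckeLocal.π N (↑S : Set ℕ) 𝒪 θ)
      (heckeLocal_adjoin_range_π N (↑S : Set ℕ) 𝒪 θ)
  have hpO₁ : (p : O₁) ∈ maximalIdeal O₁ := by
    have h1 : (p : O₁) = algebraMap 𝒪 O₁ (p : 𝒪) := (map_natCast _ p).symm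
    rw [h1]
    exact map_nonunit (algebraMap 𝒪 O₁) _ hp𝒪
  -- the S30 representations
  have h30 := fun k => Fermat.Agent.S30.result p N S hpS hNS O₁ hpO₁
    ((ψ k : heckeLocal N (↑S : Set ℕ) 𝒪 θ →+* O₁).comp (heckeLocal.π N (↑S : Set ℕ) 𝒪 θ))
  choose R j1 j2 j3 j4 j5 j6 j7 j8 j9 hinjR ρ' hchar hunr using h30
  -- the `𝒪`-algebra structures
  letI : ∀ k, Algebra 𝒪 (R k) := fun k =>
    ((algebraMap O₁ (R k)).comp (algebraMap 𝒪 O₁)).toAlgebra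
  haveI : ∀ k, IsScalarTower 𝒪 O₁ (R k) := fun k => IsScalarTower.of_algebraMap_eq fun _ => rfl
  haveI : ∀ k, Module.Finite 𝒪 (R k) := fun k => Module.Finite.trans O₁ (R k)
  let ψ' : ∀ k, heckeLocal N (↑S : Set ℕ) 𝒪 θ →ₐ[𝒪] R k :=
    fun k => (IsScalarTower.toAlgHom 𝒪 O₁ (R k)).comp (ψ k)
  have hψ' : ∀ k x, ψ' k x = algebraMap O₁ (R k) (ψ k x) := fun k x => rfl
  haveI : Algebra.IsIntegral 𝒪 (heckeLocal N (↑S : Set ℕ) 𝒪 θ) := Algebra.IsIntegral.of_finite _ _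
  have hψloc : ∀ k, ∀ x ∈ maximalIdeal (heckeLocal N (↑S : Set ℕ) 𝒪 θ),
      ψ' k x ∈ maximalIdeal (R k) := by
    intro k x hx
    rw [hψ']
    exact map_nonunit (algebraMap O₁ (R k)) _
      (Fermat.Agent.S32lib.algHom_mem_maximalIdeal (ψ k) hx)
  have hinj : ∀ x : heckeLocal N (↑S : Set ℕ) 𝒪 θ, (∀ k, ψ' k x = 0) → x = 0 := by
    intro x hx
    refine hψ x fun k => hinjR k ?_
    rw [← hψ', hx k, map_zero]
  have hp0 : ∀ k, (p : R k) ≠ 0 := fun k => Nat.cast_ne_zero.mpr hp.ne_zero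
  -- the index set is nonempty
  obtain ⟨k₀⟩ : Nonempty κ := by
    by_contra hemp
    rw [not_nonempty_iff] at hemp
    exact one_ne_zero (hψ 1 fun k => (hemp.false k).elim)
  -- the good primes and the Hecke operators
  set good : ℕ → Prop := fun ℓ => ℓ.Prime ∧ ¬ ℓ ∣ N ∧ ℓ ∉ (↑S : Set ℕ) with hgood
  set t : ℕ → heckeAlgebra N 2 (↑S : Set ℕ) := fun ℓ =>
    if h : ℓ.Prime ∧ ¬ ℓ ∣ N ∧ ℓ ∉ (↑S : Set ℕ) then heckeAlgebra.T h.1 h.2.1 h.2.2 else 0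
    with ht
  have ht_good : ∀ ℓ (h : good ℓ), t ℓ = heckeAlgebra.T h.1 h.2.1 h.2.2 := by
    intro ℓ h
    rw [ht]
    exact dif_pos h
  have hρ' : ∀ k ℓ, good ℓ → ∀ A : ValuationSubring Qb, A.LiesOverPrime ℓ → ∀ φ : GQ,
      A.IsFrobeniusAt φ ℓ →
        LinearMap.charpoly ((ρ' k).ρ φ) =
          X ^ 2 - C (ψ' k (heckeLocal.π N (↑S : Set ℕ) 𝒪 θ (t ℓ))) * X + C (ℓ : R k) := by
    intro k ℓ hℓ A hA φ hφ
    rw [ht_good ℓ hℓ]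
    exact hchar k ℓ hℓ.1 hℓ.2.1 hℓ.2.2 A hA φ hφ
  have hS₀ : ∀ ℓ : ℕ, ℓ.Prime → ℓ ∉ S ∪ N.primeFactors → good ℓ := by
    intro ℓ hℓ hℓS₀
    refine ⟨hℓ, fun hdvd => hℓS₀ (Finset.mem_union_right _
      (Nat.mem_primeFactors.mpr ⟨hℓ, hdvd, NeZero.ne N⟩)), fun hS =>
      hℓS₀ (Finset.mem_union_left _ (Finset.mem_coe.mp hS))⟩
  have habs : (ρ' k₀).residual.IsAbsolutelyIrreducible :=
    hres (R k₀) (ψ' k₀ : heckeLocal N (↑S : Set ℕ) 𝒪 θ →+* R k₀) (hψloc k₀) (ρ' k₀)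
      (fun ℓ hℓ hℓN hℓS A' hA' σ hσ => hchar k₀ ℓ hℓ hℓN hℓS A' hA' σ hσ)
  obtain ⟨ρ, hρ⟩ := exists_galoisRepAdic_of_family (𝒪 := 𝒪) (heckeLocal.π N (↑S : Set ℕ) 𝒪 θ)
    good t R ψ' hp hp2 hp𝒪 hψloc hinj hp0 ρ' hρ' (S ∪ N.primeFactors) hS₀ k₀ habs
  have hfrob : ∀ (ℓ : ℕ) (hℓ : ℓ.Prime) (hℓN : ¬ ℓ ∣ N) (hℓS : ℓ ∉ (↑S : Set ℕ)),
      ∀ A : ValuationSubring Qb, A.LiesOverPrime ℓ → ∀ σ : GQ, A.IsFrobeniusAt σ ℓ →
        LinearMap.charpoly (ρ.ρ σ) =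
          X ^ 2 - C (heckeLocal.π N (↑S : Set ℕ) 𝒪 θ (heckeAlgebra.T hℓ hℓN hℓS)) * X
            + C ((ℓ : heckeLocal N (↑S : Set ℕ) 𝒪 θ)) := by
    intro ℓ hℓ hℓN hℓS A hA σ hσ
    have h := hρ ℓ ⟨hℓ, hℓN, hℓS⟩ A hA σ hσ
    rwa [ht_good ℓ ⟨hℓ, hℓN, hℓS⟩] at h
  exact ⟨{ π := heckeLocal.π N (↑S : Set ℕ) 𝒪 θ
           residue_π := heckeLocal_residue_π N (↑S : Set ℕ) 𝒪 θ
           adjoin_range_π := heckeLocal_adjoin_range_π N (↑S : Set ℕ) 𝒪 θ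
           exists_point := heckeLocal_exists_point N (↑S : Set ℕ) 𝒪 θ
           residue_surjective := heckeLocal_residue_surjective N (↑S : Set ℕ) 𝒪 θ
           ρ := ρ
           charpoly_frob := hfrob
           residual_absIrr := hres _ (RingHom.id _) (fun x hx => hx) ρ hfrob }, rfl⟩


/-- **B2a, mod-`p` form, with the structure map pinned down.** -/
theorem exists_heckeGaloisRepDatum_π [Fact p.Prime] (hp2 : p ≠ 2)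
    (hp𝒪 : (p : 𝒪) ∈ maximalIdeal 𝒪) (hpS : p ∈ S)
    (hNS : ∀ q : ℕ, q.Prime → q ∣ N → q ∈ S)
    (θ : heckeAlgebra N 2 (↑S : Set ℕ) →+* ResidueField 𝒪)
    (ρ₀ : ResidualGaloisRep (ZMod p)) (hirr : ρ₀.IsIrreducible)
    (a : ℕ → ℤ) (S₀ : Finset ℕ)
    (h₀ : ∀ ℓ : ℕ, ℓ.Prime → ℓ ∉ S₀ → ∀ A : ValuationSubring Qb, A.LiesOverPrime ℓ →
      ∀ φ : GQ, A.IsFrobeniusAt φ ℓ →
        LinearMap.charpoly (ρ₀.ρ φ) =
          X ^ 2 - C ((a ℓ : ℤ) : ZMod p) * X + C ((ℓ : ℕ) : ZMod p))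
    (hθ : ∀ (ℓ : ℕ) (hℓ : ℓ.Prime) (hℓN : ¬ ℓ ∣ N) (hℓS : ℓ ∉ (↑S : Set ℕ)), ℓ ∉ S₀ →
      θ (heckeAlgebra.T hℓ hℓN hℓS) = ((a ℓ : ℤ) : ResidueField 𝒪)) :
    ∃ H : HeckeGaloisRepDatum N (↑S : Set ℕ) 𝒪 θ (heckeLocal N (↑S : Set ℕ) 𝒪 θ),
      H.π = heckeLocal.π N (↑S : Set ℕ) 𝒪 θ :=
  nonempty_heckeGaloisRepDatum_π θ (Fact.out : p.Prime) hp2 hp𝒪 hpS hNS
    (resAbsIrr_of_modp θ hp2 hp𝒪 ρ₀ hirr a S₀ h₀ hθ)

end Fermat.Agent.S43lib.B2
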